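/-
KL-A skeleton, abstract half (Mathlib only).  WIP: contains `sorry`; never import from landed files.
Each `sorry` is a block with its own owner; the final files live in `Fermat/Agent/S18/...`.
-/
import Mathlib
import Fermat.Agent.S18.Defs

set_option autoImplicit false

noncomputable section

namespace Fermat.Agent.S18

open Polynomial IntermediateField

/-! ## Block INJ (sub-architect helper128): `Fermat/Agent/S18/Abs/*` -/
section INJ

variable {F : Type*} [Field F]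

theorem inj_abs {Ow : ValuationSubring F} {ϖ : F} (hϖ : IsUnif Ow ϖ) {A₀ B₁ B₂ : Subring F} {x : F}
    (hϖA : ϖ ∈ A₀) (hc : IsCover A₀ x B₁ B₂) (h₁ : IsChart Ow ϖ B₁) (h₂ : IsChart Ow ϖ B₂)
    {m : ℕ} (hm : (m : F) ≠ 0) (hm' : (m : F)⁻¹ ∈ A₀) {h : F} (hh : (h - 1) / ϖ ∈ Ow)
    (r₁ : RootData B₁ ϖ m h) (r₂ : RootData B₂ ϖ m h) :
    ∃ s : F, s ≠ 0 ∧ s ^ m * h ∈ B₁ ∧ s ^ m * h ∈ B₂ := by
  sorry

end INJ

/-! ## Block CHART (sub-architect helper88; uses NOR = helper287 + helper160):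
`Fermat/Agent/S18/Chart/*` -/
section CHART

variable {K₀ F : Type*} [Field K₀] [Field F] [Algebra K₀ F]
variable {A₀ : ValuationSubring K₀} {ϖ₀ : K₀} {Ow : ValuationSubring F}
variable {E : IntermediateField K₀ F} {x : F}

theorem IsVert.mono (hV : IsVert A₀ ϖ₀ Ow E) {E' : IntermediateField K₀ F} (h : E ≤ E') :
    IsVert A₀ ϖ₀ Ow E' := by
  sorry

theorem mem_chart_iff (hV : IsVert A₀ ϖ₀ Ow E) (hx : IsCoord A₀ ϖ₀ Ow E x) (z : F) :
    z ∈ chart A₀.toSubring x ↔ z ∈ Ow ∧ z ∈ chart (⊤ : Subring K₀) x := by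
  sorry

theorem isChart_chart [CharZero K₀] (hV : IsVert A₀ ϖ₀ Ow E) (hx : IsCoord A₀ ϖ₀ Ow E x)
    (g : A₀[X]) (hg : Squarefree (g.map (IsLocalRing.residue A₀)))
    (hram : IsUnramOutside x (g.map A₀.subtype)) :
    IsChart Ow (algebraMap K₀ F ϖ₀) (chart A₀.toSubring x) := by
  sorry

theorem isCover_chart [CharZero K₀] (hV : IsVert A₀ ϖ₀ Ow E) (hx : IsCoord A₀ ϖ₀ Ow E x)
    (hx' : IsCoord A₀ ϖ₀ Ow E x⁻¹) :
    IsCover (A₀.toSubring.map (algebraMap K₀ F)) x (chart A₀.toSubring x)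
      (chart A₀.toSubring x⁻¹) := by
  sorry

/-- scaling by powers of `ϖ`: root data on the generic fibre give root data on the chart. -/
theorem rootData_chart (hV : IsVert A₀ ϖ₀ Ow E) (hx : IsCoord A₀ ϖ₀ Ow E x) {m : ℕ} {h : F}
    (hh : h ∈ Ow) (hh' : h⁻¹ ∈ Ow) (r : RootData (chart (⊤ : Subring K₀) x) 1 m h) :
    RootData (chart A₀.toSubring x) (algebraMap K₀ F ϖ₀) m h := by
  sorry

end CHART

/-! ## Block CONST -/
section CONST

variable {K₀ F : Type*} [Field K₀] [Field F] [Algebra K₀ F]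

theorem const_abs {x : F} (hx : Transcendental K₀ x) {z : F}
    (h₁ : z ∈ chart (⊤ : Subring K₀) x) (h₂ : z ∈ chart (⊤ : Subring K₀) x⁻¹) :
    IsAlgebraic K₀ z := by
  sorry

theorem IsCoord.transcendental {A₀ : ValuationSubring K₀} {ϖ₀ : K₀} {Ow : ValuationSubring F}
    {E : IntermediateField K₀ F} {x : F} (h₀ : IsUnif A₀ ϖ₀) (hx : IsCoord A₀ ϖ₀ Ow E x) :
    Transcendental K₀ x := by
  sorry

/-- units `≡ 1`. -/
theorem IsUnif.mem_of_sub_one {Ow : ValuationSubring F} {ϖ : F} (hϖ : IsUnif Ow ϖ) {h : F}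
    (hh : (h - 1) / ϖ ∈ Ow) : h ∈ Ow ∧ h⁻¹ ∈ Ow := by
  sorry

end CONST

/-! ## The abstract core of KL-A -/
section CORE

variable {K₀ F : Type*} [Field K₀] [CharZero K₀] [Field F] [Algebra K₀ F]
variable {A₀ : ValuationSubring K₀} {ϖ₀ : K₀} {Ow : ValuationSubring F}
variable {E : IntermediateField K₀ F} {x : F}

theorem kl_core (hV : IsVert A₀ ϖ₀ Ow E) (hx : IsCoord A₀ ϖ₀ Ow E x)
    (hx' : IsCoord A₀ ϖ₀ Ow E x⁻¹) (g₁ g₂ : A₀[X])
    (hg₁ : Squarefree (g₁.map (IsLocalRing.residue A₀)))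
    (hg₂ : Squarefree (g₂.map (IsLocalRing.residue A₀)))
    (hr₁ : IsUnramOutside x (g₁.map A₀.subtype)) (hr₂ : IsUnramOutside x⁻¹ (g₂.map A₀.subtype))
    {m : ℕ} (hm0 : m ≠ 0) (hm : (m : K₀)⁻¹ ∈ A₀) {h : F}
    (hh : (h - 1) / algebraMap K₀ F ϖ₀ ∈ Ow)
    (r₁ : RootData (chart (⊤ : Subring K₀) x) 1 m h)
    (r₂ : RootData (chart (⊤ : Subring K₀) x⁻¹) 1 m h) :
    ∃ s : F, s ≠ 0 ∧ IsAlgebraic K₀ (s ^ m * h) := by
  obtain ⟨hh1, hh2⟩ := hV.unif.mem_of_sub_one hh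
  have hmF : (m : F) ≠ 0 := by
    have h1 : (m : K₀) ≠ 0 := Nat.cast_ne_zero.mpr hm0
    have h2 : (algebraMap K₀ F) (m : K₀) ≠ 0 := (_root_.map_ne_zero _).mpr h1
    rwa [map_natCast] at h2
  obtain ⟨s, hs0, hs1, hs2⟩ := inj_abs hV.unif
    (Subring.mem_map.mpr ⟨ϖ₀, hV.unif₀.mem, rfl⟩) (isCover_chart hV hx hx')
    (isChart_chart hV hx g₁ hg₁ hr₁) (isChart_chart hV hx' g₂ hg₂ hr₂) hmF
    (by
      refine ⟨(m : K₀)⁻¹, hm, ?_⟩
      simp)
    hh (rootData_chart hV hx hh1 hh2 r₁) (rootData_chart hV hx' hh1 hh2 r₂)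
  exact ⟨s, hs0, const_abs (hx.transcendental hV.unif₀) ((mem_chart_iff hV hx _).mp hs1).2
    ((mem_chart_iff hV hx' _).mp hs2).2⟩

end CORE

end Fermat.Agent.S18
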