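/-
KL-A skeleton, modular half.  WIP: contains `sorry`; never import from landed files.
-/
import Mathlib
import Fermat.Agent.S18.Defs
import Fermat.Agent.S18.ModDefs
import Fermat.Agent.S18.WIP.AbsSkeleton
import Fermat.Agent.S18.Descent.Union
import Fermat.Agent.GAL.KLStatement
import Fermat.Agent.S28.Defs

set_option autoImplicit false

noncomputable section

namespace Fermat.Agent.S18

open Polynomial IntermediateField ModularCurve AlgebraicCurve Fermat.Agent.S24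

/-! ## Block GAUSS (helper113): `Fermat/Agent/S18/Gauss/*` -/
section GAUSS

variable {K₀ : Type*} [Field K₀] [Algebra ℚ K₀] {A₀ : ValuationSubring K₀} {ϖ₀ : K₀}

theorem exists_isGauss (h₀ : IsUnif A₀ ϖ₀) (M : ℕ) :
    ∃ Ow : ValuationSubring (FK K₀ M), IsGauss A₀ ϖ₀ (FK K₀ M) Ow := by
  sorry

theorem IsGauss.const_mem {L : IntermediateField K₀ (LaurentSeries K₀)} {Ow : ValuationSubring L}
    (hG : IsGauss A₀ ϖ₀ L Ow) : ∀ a ∈ A₀, algebraMap K₀ L a ∈ Ow := by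
  sorry

/-- `P ≡ Q ≢ 0` implies `w (P / Q - 1) > 0`. -/
theorem IsGauss.sub_one_div_mem {L : IntermediateField K₀ (LaurentSeries K₀)}
    {Ow : ValuationSubring L} (h₀ : IsUnif A₀ ϖ₀) (hG : IsGauss A₀ ϖ₀ L Ow)
    (P Q : LaurentSeries A₀) (hP : coeffMap A₀.subtype P ∈ L) (hQ : coeffMap A₀.subtype Q ∈ L)
    (hred : coeffMap (IsLocalRing.residue A₀) P = coeffMap (IsLocalRing.residue A₀) Q)
    (hne : coeffMap (IsLocalRing.residue A₀) Q ≠ 0) :
    ((⟨_, hP⟩ : L) / ⟨_, hQ⟩ - 1) / algebraMap K₀ L ϖ₀ ∈ Ow := by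
  sorry

end GAUSS

/-! ## Block VERT-j (helper113, S28 liaison): `Fermat/Agent/S18/Vert/*` -/
section VERT

variable {K₀ : Type*} [Field K₀] [Algebra ℚ K₀] {A₀ : ValuationSubring K₀} {ϖ₀ : K₀}

theorem isVert_j (h₀ : IsUnif A₀ ϖ₀) {M ℓ : ℕ} [NeZero M] [Fact ℓ.Prime] (hℓ : ¬ ℓ ∣ M)
    (hℓA : (ℓ : K₀) / ϖ₀ ∈ A₀) (U : S28.UData M ℓ) {Ow : ValuationSubring (FK K₀ M)}
    (hG : IsGauss A₀ ϖ₀ (FK K₀ M) Ow) : IsVert A₀ ϖ₀ Ow K₀⟮jK K₀ M⟯ := by
  sorry

end VERT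

/-! ## Block COORD: `Fermat/Agent/S18/Base/Coord.lean` -/
section COORD

variable {K₀ : Type*} [Field K₀] [Algebra ℚ K₀] {A₀ : ValuationSubring K₀} {ϖ₀ : K₀}

theorem adjoin_jK_le {M ℓ : ℕ} (D : BaseData M ℓ) (K : Type*) [Field K] [Algebra ℚ K] :
    K⟮jK K M⟯ ≤ K⟮D.xK K⟯ := by
  sorry

theorem transcendental_xK {M ℓ : ℕ} (D : BaseData M ℓ) (K : Type*) [Field K] [Algebra ℚ K] :
    Transcendental K (D.xK K) := by
  sorry

theorem isCoord_base (h₀ : IsUnif A₀ ϖ₀) {M ℓ : ℕ} (D : BaseData M ℓ)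
    {Ow : ValuationSubring (FK K₀ M)} (hG : IsGauss A₀ ϖ₀ (FK K₀ M) Ow) :
    IsCoord A₀ ϖ₀ Ow K₀⟮D.xK K₀⟯ (D.xK K₀) := by
  sorry

theorem isCoord_base_inv (h₀ : IsUnif A₀ ϖ₀) {M ℓ : ℕ} (D : BaseData M ℓ)
    {Ow : ValuationSubring (FK K₀ M)} (hG : IsGauss A₀ ϖ₀ (FK K₀ M) Ow) :
    IsCoord A₀ ϖ₀ Ow K₀⟮D.xK K₀⟯ (D.xK K₀)⁻¹ := by
  sorry

/-- a polynomial over `ℤ`, separable mod `ℓ`, is squarefree over the residue field of `A₀`. -/
theorem squarefree_map_residue {ℓ : ℕ} [Fact ℓ.Prime] (h₀ : IsUnif A₀ ϖ₀)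
    (hℓA : (ℓ : K₀) / ϖ₀ ∈ A₀) (g : ℤ[X]) (hg : (g.map (Int.castRingHom (ZMod ℓ))).Separable) :
    Squarefree ((g.map (Int.castRingHom A₀)).map (IsLocalRing.residue A₀)) := by
  sorry

end COORD

/-! ## Block PLACES (function fields over any field): `Fermat/Agent/S18/Places/*` -/
section PLACES

variable {K F : Type*} [Field K] [CharZero K] [Field F] [Algebra K F]

theorem mem_chart_top_iff_places {x : F} (hx : Transcendental K x) [FiniteDimensional K⟮x⟯ F]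
    (z : F) : z ∈ chart (⊤ : Subring K) x ↔ ∀ v : Place K F, 0 ≤ v.ord x → 0 ≤ v.ord z := by
  sorry

theorem rootData_of_places {x : F} (hx : Transcendental K x) [FiniteDimensional K⟮x⟯ F]
    {m : ℕ} (hm : m ≠ 0) {h : F} (hh : h ≠ 0)
    (hdiv : ∀ v : Place K F, 0 ≤ v.ord x → (m : ℤ) ∣ v.ord h) :
    RootData (chart (⊤ : Subring K) x) 1 m h := by
  sorry

theorem isUnramOutside_of_places [IsAlgClosed K] {x : F} (hx : Transcendental K x)
    [FiniteDimensional K⟮x⟯ F] (g : K[X])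
    (hram : ∀ (v : Place K F) (c : K), g.eval c ≠ 0 → 0 < v.ord (x - algebraMap K F c) →
      v.ord (x - algebraMap K F c) = 1) :
    IsUnramOutside x g := by
  sorry

end PLACES

/-! ## Block DESC (helper248): `Fermat/Agent/S18/Descent/*` -/
section DESC

section Abs

variable {K₀ K F₀ F : Type*} [Field K₀] [Field K] [Field F₀] [Field F] [Algebra K₀ F₀]
  [Algebra K F] [Algebra K₀ K] [Algebra.IsAlgebraic K₀ K] (ι : F₀ →+* F)
  (hι : ∀ c : K₀, ι (algebraMap K₀ F₀ c) = algebraMap K F (algebraMap K₀ K c))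

include hι in
theorem mem_chart_top_descent (x z : F₀) :
    z ∈ chart (⊤ : Subring K₀) x ↔ ι z ∈ chart (⊤ : Subring K) (ι x) := by
  sorry

include hι in
theorem isUnramOutside_descent [CharZero K₀] (x : F₀) (g : K₀[X])
    (h : IsUnramOutside (ι x) (g.map (algebraMap K₀ K))) : IsUnramOutside x g := by
  sorry

include hι in
/-- an element algebraic over `K₀` becomes a constant, hence an `m`-th power, over `K`. -/
theorem exists_pow_eq_of_isAlgebraic [IsAlgClosed K] {m : ℕ} (hm : m ≠ 0) {z : F₀}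
    (hz : IsAlgebraic K₀ z) : ∃ c : K, ι z = algebraMap K F c ^ m := by
  sorry

end Abs

theorem exists_isUnif_comap (A : ValuationSubring Kbar) {ℓ : ℕ} [Fact ℓ.Prime]
    (hA : A.LiesOverPrime ℓ) (K₀ : IntermediateField ℚ Kbar) [FiniteDimensional ℚ K₀] :
    ∃ ϖ₀ : K₀, IsUnif (A.comap (algebraMap K₀ Kbar)) ϖ₀ ∧
      (ℓ : K₀) / ϖ₀ ∈ A.comap (algebraMap K₀ Kbar) := by
  sorry

/-- integers prime to `ℓ` are units. -/
theorem natCast_inv_mem_comap (A : ValuationSubring Kbar) {ℓ : ℕ} [Fact ℓ.Prime]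
    (hA : A.LiesOverPrime ℓ) (K₀ : IntermediateField ℚ Kbar) {n : ℕ} (hn : ¬ ℓ ∣ n) :
    (n : K₀)⁻¹ ∈ A.comap (algebraMap K₀ Kbar) := by
  sorry

/-- descent of integral series. -/
theorem exists_integral_descent (A : ValuationSubring Kbar) (K₀ : IntermediateField ℚ Kbar)
    (P : LaurentSeries A) (y : LaurentSeries K₀)
    (h : coeffMap (algebraMap K₀ Kbar) y = coeffMap A.subtype P) :
    ∃ P₀ : LaurentSeries (A.comap (algebraMap K₀ Kbar)),
      coeffMap (A.comap (algebraMap K₀ Kbar)).subtype P₀ = y := by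
  sorry

/-- descent of congruences. -/
theorem residue_descent (A : ValuationSubring Kbar) (K₀ : IntermediateField ℚ Kbar)
    (P Q : LaurentSeries A) (P₀ Q₀ : LaurentSeries (A.comap (algebraMap K₀ Kbar)))
    (hP : coeffMap (algebraMap K₀ Kbar) (coeffMap (A.comap (algebraMap K₀ Kbar)).subtype P₀) =
      coeffMap A.subtype P)
    (hQ : coeffMap (algebraMap K₀ Kbar) (coeffMap (A.comap (algebraMap K₀ Kbar)).subtype Q₀) =
      coeffMap A.subtype Q) :
    coeffMap (IsLocalRing.residue A) P = coeffMap (IsLocalRing.residue A) Q ↔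
      coeffMap (IsLocalRing.residue (A.comap (algebraMap K₀ Kbar))) P₀ =
        coeffMap (IsLocalRing.residue (A.comap (algebraMap K₀ Kbar))) Q₀ := by
  sorry

end DESC

/-! ## Assembly: KL at level `M` from a base coordinate -/
section MAIN

theorem kl_of_base {M ℓ : ℕ} [NeZero M] [Fact ℓ.Prime] (hℓ : ¬ ℓ ∣ M) (D : BaseData M ℓ)
    (U : S28.UData M ℓ) (A : ValuationSubring Kbar) (hA : A.LiesOverPrime ℓ) (n : ℕ)
    (hn : ¬ ℓ ∣ n) : GAL.KL M A n := by
  sorry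

end MAIN

/-! ## Block LEVEL: `Fermat/Agent/S18/Level/*` -/
section LEVEL

theorem kl_level {N r : ℕ} [NeZero N] (hr : r.Prime) (hrN : ¬ r ∣ N)
    (A : ValuationSubring Kbar) (n : ℕ) (hcop : Nat.Coprime n (r + 1))
    (h : GAL.KL (r * N) A n) : GAL.KL N A n := by
  sorry

end LEVEL

/-! ## Block BASES: `Fermat/Agent/S18/Base/*` (helper167, on top of Lib/Hauptmodul of helper227) -/
section BASES

theorem nonempty_baseData_j (M ℓ : ℕ) [NeZero M] (hℓ : ℓ.Prime) (h5 : 5 ≤ ℓ) :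
    Nonempty (BaseData M ℓ) := by
  sorry

theorem nonempty_baseData_h2 (M : ℕ) [NeZero M] (h2 : 2 ∣ M) : Nonempty (BaseData M 3) := by
  sorry

theorem nonempty_baseData_h3 (M : ℕ) [NeZero M] (h3 : 3 ∣ M) : Nonempty (BaseData M 2) := by
  sorry

end BASES

/-! ## The key lemma -/

theorem klStatement
    (hU : ∀ (M ℓ : ℕ) [NeZero M] [Fact ℓ.Prime], ¬ ℓ ∣ M → Nonempty (S28.UData M ℓ)) :
    GAL.KLStatement := by
  sorry

end Fermat.Agent.S18
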