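/-
KL-A: assembly of the modular half (helper167).  WIP: imports the skeleton.
-/
import Fermat.Agent.S18.WIP.ModSkeleton
import Fermat.Agent.S18.Base.Bases
import Fermat.Agent.S24.Export.Ramification

set_option autoImplicit false

noncomputable section

namespace Fermat.Agent.S18.Assembly

open Polynomial IntermediateField ModularCurve AlgebraicCurve Fermat.Agent.S24
open Fermat.Agent.S18.Descent

theorem transcendental_inv {K F : Type*} [Field K] [Field F] [Algebra K F] {x : F}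
    (hx : Transcendental K x) : Transcendental K x⁻¹ := by
  intro h
  apply hx
  have := h.inv
  rwa [inv_inv] at this

/-- descent of root data -/
theorem rootData_descent {K₀ K F₀ F : Type*} [Field K₀] [Field K] [Field F₀] [Field F]
    [Algebra K₀ F₀] [Algebra K F] [Algebra K₀ K] [Algebra.IsAlgebraic K₀ K] (ι : F₀ →+* F)
    (hι : ∀ c : K₀, ι (algebraMap K₀ F₀ c) = algebraMap K F (algebraMap K₀ K c))
    (x h : F₀) (m : ℕ) {n s : ℕ} (a a' : Fin n → F)
    (h1 : ∀ k, a k ^ m * ι h ∈ chart (⊤ : Subring K) (ι x))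
    (h2 : ∀ k, a' k ^ m * (ι h)⁻¹ ∈ chart (⊤ : Subring K) (ι x))
    (hs : ∑ k, a k * a' k = 1 ^ s)
    (ha : ∀ k, ∃ y : F₀, ι y = a k) (ha' : ∀ k, ∃ y : F₀, ι y = a' k) :
    RootData (chart (⊤ : Subring K₀) x) 1 m h := by
  choose b hb using ha
  choose b' hb' using ha'
  refine ⟨n, s, b, b', ?_, ?_, ?_⟩
  · intro k
    rw [mem_chart_top_descent ι hι, map_mul, map_pow, hb]
    exact h1 k
  · intro k
    rw [mem_chart_top_descent ι hι, map_mul, map_pow, hb', map_inv₀]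
    exact h2 k
  · apply ι.injective
    rw [map_sum, map_pow, map_one, ← hs]
    refine Finset.sum_congr rfl fun k _ => ?_
    rw [map_mul, hb, hb']

theorem map_map_int {R S : Type*} [CommRing R] [CommRing S] (g : ℤ[X]) (f : R →+* S) :
    (g.map (Int.castRingHom R)).map f = g.map (Int.castRingHom S) := by
  rw [Polynomial.map_map]
  congr 1
  exact RingHom.ext_int _ _

theorem kl_of_base {M ℓ : ℕ} [NeZero M] [Fact ℓ.Prime] (hℓ : ¬ ℓ ∣ M) (D : BaseData M ℓ)
    (U : S28.UData M ℓ) (A : ValuationSubring Kbar) (hA : A.LiesOverPrime ℓ) (n : ℕ)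
    (hn : ¬ ℓ ∣ n) : GAL.KL M A n := by
  classical
  intro P Q hP hQ hres hres0 hdvd
  have : Algebra.IsAlgebraic ℚ Kbar := AlgebraicClosure.isAlgebraic ℚ
  have hn0 : n ≠ 0 := by rintro rfl; exact hn (dvd_zero _)
  set H : FN M := (⟨coeffMap A.subtype P, hP⟩ : FN M) / ⟨coeffMap A.subtype Q, hQ⟩ with hH
  set x : FN M := D.xK Kbar with hx
  have hxtr : Transcendental Kbar x := transcendental_xK D Kbar
  have hxtr' : Transcendental Kbar x⁻¹ := transcendental_inv hxtr
  have : FiniteDimensional Kbar⟮x⟯ (FN M) := (Export.isFF1 M).finite _ hxtr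
  have : FiniteDimensional Kbar⟮x⁻¹⟯ (FN M) := (Export.isFF1 M).finite _ hxtr'
  have hne : ∀ R : LaurentSeries A, coeffMap (IsLocalRing.residue A) R ≠ 0 →
      coeffMap A.subtype R ≠ 0 := by
    intro R hR h0
    apply hR
    have : R = 0 := coeffMap_injective A.subtype Subtype.val_injective (by rw [h0, map_zero])
    rw [this, map_zero]
  have hH0 : H ≠ 0 := by
    apply div_ne_zero
    · intro h0
      exact hne P (hres ▸ hres0) (congrArg Subtype.val h0)
    · intro h0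
      exact hne Q hres0 (congrArg Subtype.val h0)
  obtain ⟨n1, s1, a1, a1', h1, h1', hs1⟩ := rootData_of_places hxtr hn0 hH0 (fun v _ => hdvd v)
  obtain ⟨n2, s2, a2, a2', h2, h2', hs2⟩ := rootData_of_places hxtr' hn0 hH0 (fun v _ => hdvd v)
  -- descent to a number field
  let S : Finset (LaurentSeries Kbar) :=
    {coeffMap A.subtype P, coeffMap A.subtype Q} ∪
      (Finset.univ.image fun k => ((a1 k : FN M) : LaurentSeries Kbar)) ∪
      (Finset.univ.image fun k => ((a1' k : FN M) : LaurentSeries Kbar)) ∪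
      (Finset.univ.image fun k => ((a2 k : FN M) : LaurentSeries Kbar)) ∪
      (Finset.univ.image fun k => ((a2' k : FN M) : LaurentSeries Kbar))
  have hS : ∀ y ∈ S, y ∈ laurentBaseChange Kbar (modularFunctionFieldFull M) := by
    intro y hy
    simp only [S, Finset.mem_union, Finset.mem_insert, Finset.mem_singleton, Finset.mem_image,
      Finset.mem_univ, true_and] at hy
    rcases hy with (((((rfl | rfl) | ⟨k, rfl⟩) | ⟨k, rfl⟩) | ⟨k, rfl⟩) | ⟨k, rfl⟩)
    · exact hP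
    · exact hQ
    · exact (a1 k).2
    · exact (a1' k).2
    · exact (a2 k).2
    · exact (a2' k).2
  obtain ⟨K₀, hK₀fin, -, -, hdef⟩ := exists_definedOver_finset S hS ∅ ⊥
  have := hK₀fin
  let ι : FK K₀ M →+* FK Kbar M := baseChangeMap (modularFunctionFieldFull M) (algebraMap K₀ Kbar)
  have hι : ∀ c : K₀, ι (algebraMap K₀ (FK K₀ M) c) =
      algebraMap Kbar (FK Kbar M) (algebraMap K₀ Kbar c) := fun c => baseChangeMap_algebraMap _ c
  have hlift : ∀ y : FN M, (y : LaurentSeries Kbar) ∈ S → ∃ y₀ : FK K₀ M, ι y₀ = y := by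
    intro y hy
    obtain ⟨y₀, hy₀, hy₀'⟩ := hdef _ hy
    exact ⟨⟨y₀, hy₀⟩, Subtype.ext hy₀'⟩
  obtain ⟨yP, hyP, hyP'⟩ := hdef (coeffMap A.subtype P) (by simp [S])
  obtain ⟨yQ, hyQ, hyQ'⟩ := hdef (coeffMap A.subtype Q) (by simp [S])
  set A₀ : ValuationSubring K₀ := A.comap (algebraMap K₀ Kbar) with hA₀
  obtain ⟨P₀, hP₀⟩ := exists_integral_descent A K₀ P yP hyP'
  obtain ⟨Q₀, hQ₀⟩ := exists_integral_descent A K₀ Q yQ hyQ'
  subst hP₀ hQ₀
  obtain ⟨ϖ₀, h₀, hℓA⟩ := exists_isUnif_comap A hA K₀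
  obtain ⟨Ow, hG⟩ := exists_isGauss h₀ M
  set x₀ : FK K₀ M := D.xK K₀ with hx₀
  have hιx : ι x₀ = x := Subtype.ext (coeffMap_coeffEmb' _ _)
  have hιx' : ι x₀⁻¹ = x⁻¹ := by rw [map_inv₀, hιx]
  set h₀' : FK K₀ M := (⟨_, hyP⟩ : FK K₀ M) / ⟨_, hyQ⟩ with hh₀'
  have hιh : ι h₀' = H := by
    rw [hh₀', hH, map_div₀]
    congr 1
    · exact Subtype.ext hyP'
    · exact Subtype.ext hyQ'
  have hV : IsVert A₀ ϖ₀ Ow K₀⟮x₀⟯ := (isVert_j h₀ hℓ hℓA U hG).mono (adjoin_jK_le D K₀)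
  have hres₀ := (residue_descent A K₀ P Q P₀ Q₀ hyP' hyQ').1 hres
  have hres0₀ : coeffMap (IsLocalRing.residue A₀) Q₀ ≠ 0 := by
    intro h0
    apply hres0
    have := (residue_descent A K₀ Q 0 Q₀ 0 hyQ' (by simp)).2 (by rw [h0, map_zero])
    rw [this, map_zero]
  have hr₁ : IsUnramOutside x₀ ((D.g₁.map (Int.castRingHom A₀)).map A₀.subtype) := by
    apply isUnramOutside_descent ι hι
    rw [map_map_int, map_map_int, hιx]
    exact isUnramOutside_of_places hxtr _ D.ram₁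
  have hr₂ : IsUnramOutside x₀⁻¹ ((D.g₂.map (Int.castRingHom A₀)).map A₀.subtype) := by
    apply isUnramOutside_descent ι hι
    rw [map_map_int, map_map_int, hιx']
    exact isUnramOutside_of_places hxtr' _ D.ram₂
  have r₁ : RootData (chart (⊤ : Subring K₀) x₀) 1 n h₀' := by
    refine rootData_descent ι hι x₀ h₀' n a1 a1' ?_ ?_ hs1 ?_ ?_
    · rw [hιx, hιh]; exact h1
    · rw [hιx, hιh]; exact h1'
    · intro k; exact hlift _ (by simp [S])
    · intro k; exact hlift _ (by simp [S])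
  have r₂ : RootData (chart (⊤ : Subring K₀) x₀⁻¹) 1 n h₀' := by
    refine rootData_descent ι hι x₀⁻¹ h₀' n a2 a2' ?_ ?_ hs2 ?_ ?_
    · rw [hιx', hιh]; exact h2
    · rw [hιx', hιh]; exact h2'
    · intro k; exact hlift _ (by simp [S])
    · intro k; exact hlift _ (by simp [S])
  obtain ⟨s, hs0, hs⟩ := kl_core hV (isCoord_base h₀ D hG) (isCoord_base_inv h₀ D hG)
    (D.g₁.map (Int.castRingHom A₀)) (D.g₂.map (Int.castRingHom A₀))
    (squarefree_map_residue h₀ hℓA D.g₁ D.sep₁) (squarefree_map_residue h₀ hℓA D.g₂ D.sep₂)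
    hr₁ hr₂ hn0 (natCast_inv_mem_comap A hA K₀ hn)
    (hG.sub_one_div_mem h₀ P₀ Q₀ hyP hyQ hres₀ hres0₀) r₁ r₂
  obtain ⟨c, hc⟩ := exists_pow_eq_of_isAlgebraic ι hι hn0 hs
  refine ⟨algebraMap Kbar (FN M) c / ι s, ?_⟩
  have hιs : ι s ≠ 0 := (_root_.map_ne_zero ι).mpr hs0
  rw [map_mul, map_pow, hιh] at hc
  rw [div_pow, ← hc]
  field_simp

theorem klStatement
    (hU : ∀ (M ℓ : ℕ) [NeZero M] [Fact ℓ.Prime], ¬ ℓ ∣ M → Nonempty (S28.UData M ℓ)) :
    GAL.KLStatement := by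
  intro N _ ℓ hℓ hN A hA n hn
  have hp : ℓ.Prime := hℓ.out
  by_cases h5 : 5 ≤ ℓ
  · obtain ⟨D⟩ := Base.nonempty_baseData_j N ℓ hp h5
    obtain ⟨U⟩ := hU N ℓ hN
    exact kl_of_base hN D U A hA n hn
  · have h23 : ℓ = 2 ∨ ℓ = 3 := by
      have h2 := hp.two_le
      have : ℓ ≠ 4 := by rintro rfl; exact absurd hp (by norm_num)
      omega
    rcases h23 with rfl | rfl
    · -- ℓ = 2, base h₃
      by_cases h3 : 3 ∣ N
      · obtain ⟨D⟩ := Base.nonempty_baseData_h3 N h3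
        obtain ⟨U⟩ := hU N 2 hN
        exact kl_of_base hN D U A hA n hn
      · have hN' : ¬ 2 ∣ 3 * N := by
          intro h
          exact hN ((Nat.Coprime.dvd_mul_left (by norm_num)).1 h)
        have : NeZero (3 * N) := ⟨mul_ne_zero (by norm_num) (NeZero.ne N)⟩
        obtain ⟨D⟩ := Base.nonempty_baseData_h3 (3 * N) (dvd_mul_right 3 N)
        obtain ⟨U⟩ := hU (3 * N) 2 hN'
        refine kl_level (r := 3) (by norm_num) h3 A n ?_ (kl_of_base hN' D U A hA n hn)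
        have : Nat.Coprime n 2 := (Nat.coprime_comm.1 ((Nat.Prime.coprime_iff_not_dvd hp).2 hn))
        exact Nat.Coprime.pow_right 2 this
    · -- ℓ = 3, base h₂
      by_cases h2 : 2 ∣ N
      · obtain ⟨D⟩ := Base.nonempty_baseData_h2 N h2
        obtain ⟨U⟩ := hU N 3 hN
        exact kl_of_base hN D U A hA n hn
      · have hN' : ¬ 3 ∣ 2 * N := by
          intro h
          exact hN ((Nat.Coprime.dvd_mul_left (by norm_num)).1 h)
        have : NeZero (2 * N) := ⟨mul_ne_zero (by norm_num) (NeZero.ne N)⟩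
        obtain ⟨D⟩ := Base.nonempty_baseData_h2 (2 * N) (dvd_mul_right 2 N)
        obtain ⟨U⟩ := hU (2 * N) 3 hN'
        refine kl_level (r := 2) (by norm_num) h2 A n ?_ (kl_of_base hN' D U A hA n hn)
        exact (Nat.coprime_comm.1 ((Nat.Prime.coprime_iff_not_dvd hp).2 hn))

end Fermat.Agent.S18.Assembly
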