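/-
KL-A, block CHART: fine nodes + assembly of `isChart_chart`, `isCover_chart`.
WIP: contains `sorry`; never import from landed files.
-/
import Mathlib
import Fermat.Agent.S18.Defs
import Fermat.Agent.S18.Chart.Unif
import Fermat.Agent.S18.Chart.Const
import Fermat.Agent.S18.Chart.Coord

set_option autoImplicit false

noncomputable section

namespace Fermat.Agent.S18

open Polynomial IntermediateField

variable {K₀ F : Type*} [Field K₀] [Field F] [Algebra K₀ F]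
variable {A₀ : ValuationSubring K₀} {ϖ₀ : K₀} {Ow : ValuationSubring F}
variable {E : IntermediateField K₀ F} {x : F}

/-! ### KLA-CH1  `Chart/Mono.lean` -/

theorem IsVert.mono (hV : IsVert A₀ ϖ₀ Ow E) {E' : IntermediateField K₀ F} (h : E ≤ E') :
    IsVert A₀ ϖ₀ Ow E' := by
  sorry

/-! ### KLA-CH2  `Chart/Mem.lean` -/

theorem chart_le (hV : IsVert A₀ ϖ₀ Ow E) (hx : IsCoord A₀ ϖ₀ Ow E x) :
    ∀ b ∈ chart A₀.toSubring x, b ∈ Ow := by
  sorry

theorem mem_chart_iff (hV : IsVert A₀ ϖ₀ Ow E) (hx : IsCoord A₀ ϖ₀ Ow E x) (z : F) :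
    z ∈ chart A₀.toSubring x ↔ z ∈ Ow ∧ z ∈ chart (⊤ : Subring K₀) x := by
  sorry

/-! ### KLA-CH3  `Chart/Basic.lean` (uses CH2) -/

theorem unif_mem_chart (hV : IsVert A₀ ϖ₀ Ow E) : algebraMap K₀ F ϖ₀ ∈ chart A₀.toSubring x := by
  sorry

theorem chart_qep (hV : IsVert A₀ ϖ₀ Ow E) (hx : IsCoord A₀ ϖ₀ Ow E x) :
    ∀ b ∈ chart A₀.toSubring x, b / algebraMap K₀ F ϖ₀ ∈ Ow →
      b / algebraMap K₀ F ϖ₀ ∈ chart A₀.toSubring x := by
  sorry

theorem chart_loc (hV : IsVert A₀ ϖ₀ Ow E) (hx : IsCoord A₀ ϖ₀ Ow E x) :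
    ∀ y ∈ Ow, ∃ b ∈ chart A₀.toSubring x, b ≠ 0 ∧ b⁻¹ ∈ Ow ∧ b * y ∈ chart A₀.toSubring x := by
  sorry

theorem rootData_chart (hV : IsVert A₀ ϖ₀ Ow E) (hx : IsCoord A₀ ϖ₀ Ow E x) {m : ℕ} {h : F}
    (hh : h ∈ Ow) (hh' : h⁻¹ ∈ Ow) (r : RootData (chart (⊤ : Subring K₀) x) 1 m h) :
    RootData (chart A₀.toSubring x) (algebraMap K₀ F ϖ₀) m h := by
  sorry

/-! ### KLA-CH4  `Chart/Finite.lean` -/

/-- the chart is a finite module over `A₀[x]`, with generators in the chart. -/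
theorem chart_fin [CharZero K₀] (hV : IsVert A₀ ϖ₀ Ow E) (hx : IsCoord A₀ ϖ₀ Ow E x) :
    ∃ S : Finset F, (∀ e ∈ S, e ∈ chart A₀.toSubring x) ∧
      ∀ b ∈ chart A₀.toSubring x, b ∈ Submodule.span (A₀.toSubring.map (algebraMap K₀ F))
        {y : F | ∃ (a : ℕ) (e : F), e ∈ S ∧ y = x ^ a * e} := by
  sorry

theorem chart_noeth [CharZero K₀] (hV : IsVert A₀ ϖ₀ Ow E) (hx : IsCoord A₀ ϖ₀ Ow E x) :
    IsNoetherianRing (chart A₀.toSubring x) := by
  sorry

/-! ### KLA-CH5  `Chart/Overlap.lean` -/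

theorem chart_overlap (S : Subring K₀) (hx0 : x ≠ 0) :
    ∀ b ∈ chart S x, ∃ N : ℕ, x⁻¹ ^ N * b ∈ chart S x⁻¹ := by
  sorry

theorem isNoetherianRing_map (h₀ : IsUnif A₀ ϖ₀) :
    IsNoetherianRing (A₀.toSubring.map (algebraMap K₀ F)) := by
  sorry

theorem map_le_chart (S : Subring K₀) : S.map (algebraMap K₀ F) ≤ chart S x := by
  sorry

theorem self_mem_chart (S : Subring K₀) : x ∈ chart S x := by
  sorry

/-! ### owned by helper287: `Chart/Ded.lean` -/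

theorem ded_chart [CharZero K₀] (hV : IsVert A₀ ϖ₀ Ow E) (hx : IsCoord A₀ ϖ₀ Ow E x)
    (g : A₀[X]) (hg : Squarefree (g.map (IsLocalRing.residue A₀)))
    (hram : IsUnramOutside x (g.map A₀.subtype))
    (ϖB : chart A₀.toSubring x) (hϖB : (ϖB : F) = algebraMap K₀ F ϖ₀) :
    IsDedekindDomain (chart A₀.toSubring x ⧸ Ideal.span {ϖB}) := by
  sorry

/-! ### Assembly  `Chart/IsChart.lean` -/

theorem isChart_chart [CharZero K₀] (hV : IsVert A₀ ϖ₀ Ow E) (hx : IsCoord A₀ ϖ₀ Ow E x)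
    (g : A₀[X]) (hg : Squarefree (g.map (IsLocalRing.residue A₀)))
    (hram : IsUnramOutside x (g.map A₀.subtype)) :
    IsChart Ow (algebraMap K₀ F ϖ₀) (chart A₀.toSubring x) where
  le := chart_le hV hx
  unif_mem := unif_mem_chart hV
  qep := chart_qep hV hx
  loc := chart_loc hV hx
  intClosed := fun y hy => mem_chart_of_isIntegral_chart _ _ _ hy
  noeth := chart_noeth hV hx
  ded := fun ϖB hϖB => ded_chart hV hx g hg hram ϖB hϖB

theorem isCover_chart [CharZero K₀] (hV : IsVert A₀ ϖ₀ Ow E) (hx : IsCoord A₀ ϖ₀ Ow E x)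
    (hx' : IsCoord A₀ ϖ₀ Ow E x⁻¹) :
    IsCover (A₀.toSubring.map (algebraMap K₀ F)) x (chart A₀.toSubring x)
      (chart A₀.toSubring x⁻¹) where
  noeth := isNoetherianRing_map hV.unif₀
  le₁ := map_le_chart _
  le₂ := map_le_chart _
  x_ne := fun h => (hx.transcendental hV.unif₀) (h ▸ isAlgebraic_zero)
  x_mem := self_mem_chart _
  inv_mem := self_mem_chart _
  fin₁ := chart_fin hV hx
  fin₂ := chart_fin hV hx'
  overlap₁ := chart_overlap _ (fun h => (hx.transcendental hV.unif₀) (h ▸ isAlgebraic_zero))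
  overlap₂ := by
    have hx0 : x ≠ 0 := fun h => (hx.transcendental hV.unif₀) (h ▸ isAlgebraic_zero)
    have := chart_overlap (x := x⁻¹) A₀.toSubring (inv_ne_zero hx0)
    simpa using this

end Fermat.Agent.S18
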