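/-
KL-A, block CHART/Ded (owner helper287).  WIP skeleton: contains `sorry`; never import from landed
files.  `ded_chart` = the field `ded` of `isChart_chart`, proved here from the nodes KLA-DED-*.
-/
import Mathlib
import Fermat.Agent.S18.Defs
import Fermat.Agent.S18.Chart.Unif
import Fermat.Agent.S18.Chart.Const
import Fermat.Agent.S18.Chart.Coord
import Fermat.Agent.S18.Nor.Subring

set_option autoImplicit false

noncomputable section

namespace Fermat.Agent.S18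

open Polynomial IntermediateField

variable {K₀ F : Type*} [Field K₀] [Field F] [Algebra K₀ F]
variable {A₀ : ValuationSubring K₀} {ϖ₀ : K₀} {Ow : ValuationSubring F}
variable {E : IntermediateField K₀ F} {x : F}

/-! ### KLA-DED-U  `Chart/DedUnif.lean` -/

theorem IsUnif.irreducible (h : IsUnif A₀ ϖ₀) : Irreducible (⟨ϖ₀, h.mem⟩ : A₀) := by
  sorry

theorem IsUnif.isDiscreteValuationRing (h : IsUnif A₀ ϖ₀) : IsDiscreteValuationRing A₀ := by
  sorry

/-! ### KLA-DED-P1  `Chart/DedFrac.lean` -/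

theorem mem_of_mem_polyRing (hE : K₀⟮x⟯ = E) (S : Subring K₀) : ∀ y ∈ polyRing S x, y ∈ E := by
  sorry

theorem exists_frac_polyRing (h₀ : IsUnif A₀ ϖ₀) (hE : K₀⟮x⟯ = E) :
    ∀ y ∈ E, ∃ a ∈ polyRing A₀.toSubring x, ∃ b ∈ polyRing A₀.toSubring x, b ≠ 0 ∧ y * b = a := by
  sorry

theorem exists_pow_mul_mem_polyRing (h₀ : IsUnif A₀ ϖ₀) :
    ∀ y ∈ polyRing (⊤ : Subring K₀) x,
      ∃ n : ℕ, algebraMap K₀ F ϖ₀ ^ n * y ∈ polyRing A₀.toSubring x := by
  sorry

theorem algebraMap_mem_polyRing_top (c : K₀) :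
    algebraMap K₀ F c ∈ polyRing (⊤ : Subring K₀) x := by
  sorry

/-! ### KLA-DED-P2  `Chart/DedPoly.lean` -/

theorem isNoetherianRing_polyRing (h₀ : IsUnif A₀ ϖ₀) (hx : Transcendental K₀ x) :
    IsNoetherianRing (polyRing A₀.toSubring x) := by
  sorry

theorem mem_polyRing_of_isIntegral (h₀ : IsUnif A₀ ϖ₀) (hx : Transcendental K₀ x)
    (hE : K₀⟮x⟯ = E) :
    ∀ y ∈ E, IsIntegral (polyRing A₀.toSubring x) y → y ∈ polyRing A₀.toSubring x := by
  sorry

theorem isPrincipalIdealRing_polyRing_top (hx : Transcendental K₀ x) :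
    IsPrincipalIdealRing (polyRing (⊤ : Subring K₀) x) := by
  sorry

/-! ### KLA-DED-P3  `Chart/DedPolyQuot.lean` -/

theorem prime_unif_polyRing (h₀ : IsUnif A₀ ϖ₀) (hx : Transcendental K₀ x)
    (π : polyRing A₀.toSubring x) (hπ : (π : F) = algebraMap K₀ F ϖ₀) : Prime π := by
  sorry

theorem isPrincipalIdealRing_polyRing_quotient (h₀ : IsUnif A₀ ϖ₀) (hx : Transcendental K₀ x)
    (π : polyRing A₀.toSubring x) (hπ : (π : F) = algebraMap K₀ F ϖ₀) :
    IsPrincipalIdealRing (polyRing A₀.toSubring x ⧸ Ideal.span {π}) := by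
  sorry

theorem squarefree_mk_polyRing (h₀ : IsUnif A₀ ϖ₀) (hx : Transcendental K₀ x)
    (π : polyRing A₀.toSubring x) (hπ : (π : F) = algebraMap K₀ F ϖ₀)
    (g : A₀[X]) (hg : Squarefree (g.map (IsLocalRing.residue A₀)))
    (D : polyRing A₀.toSubring x) (hD : (D : F) = aeval x (g.map A₀.subtype)) :
    Squarefree (Ideal.Quotient.mk (Ideal.span {π}) D) := by
  sorry

/-! ### KLA-DED-Q  `Chart/DedPrime.lean`  (uses `mem_chart_iff`, block CHART) -/

theorem prime_unif_chart (hV : IsVert A₀ ϖ₀ Ow E) (hx : IsCoord A₀ ϖ₀ Ow E x)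
    (ϖB : chart A₀.toSubring x) (hϖB : (ϖB : F) = algebraMap K₀ F ϖ₀) : Prime ϖB := by
  sorry

/-! ### KLA-DED-S  `Chart/DedSep.lean`  (uses `mem_chart_iff`, block CHART) -/

theorem exists_primitive_mul_mem_chart (hV : IsVert A₀ ϖ₀ Ow E) (hx : IsCoord A₀ ϖ₀ Ow E x) :
    ∀ y ∈ Ow, ∃ p : K₀[X], (∀ i, p.coeff i ∈ A₀) ∧ (∃ i, (p.coeff i)⁻¹ ∈ A₀ ∧ p.coeff i ≠ 0) ∧
      aeval x p * y ∈ chart A₀.toSubring x := by
  sorry

theorem exists_trace_div_notMem (hV : IsVert A₀ ϖ₀ Ow E) (hx : IsCoord A₀ ϖ₀ Ow E x) :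
    ∃ y ∈ chart A₀.toSubring x,
      ((Algebra.trace E F y : E) : F) / algebraMap K₀ F ϖ₀ ∉ polyRing A₀.toSubring x := by
  sorry

/-! ### KLA-DED-R  `Chart/DedUnram.lean` -/

theorem reduced_of_isUnramOutside (hx : Transcendental K₀ x) (g : K₀[X])
    (hram : IsUnramOutside x g) (D : polyRing (⊤ : Subring K₀) x) (hD : (D : F) = aeval x g)
    (f : polyRing (⊤ : Subring K₀) x) (hf : Prime f) (hfD : ¬ f ∣ D) :
    ∀ z ∈ chart (⊤ : Subring K₀) x, z ^ 2 / (f : F) ∈ chart (⊤ : Subring K₀) x →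
      z / (f : F) ∈ chart (⊤ : Subring K₀) x := by
  sorry

/-! ### Assembly  `Chart/Ded.lean` -/

theorem ded_chart [CharZero K₀] (hV : IsVert A₀ ϖ₀ Ow E) (hx : IsCoord A₀ ϖ₀ Ow E x)
    (g : A₀[X]) (hg : Squarefree (g.map (IsLocalRing.residue A₀)))
    (hram : IsUnramOutside x (g.map A₀.subtype))
    (ϖB : chart A₀.toSubring x) (hϖB : (ϖB : F) = algebraMap K₀ F ϖ₀) :
    IsDedekindDomain (chart A₀.toSubring x ⧸ Ideal.span {ϖB}) := by
  have h₀ := hV.unif₀
  have htr : Transcendental K₀ x := hx.transcendental h₀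
  haveI : CharZero F := charZero_of_injective_algebraMap (algebraMap K₀ F).injective
  haveI : FiniteDimensional E F := hV.finite
  have hπmem : algebraMap K₀ F ϖ₀ ∈ polyRing A₀.toSubring x :=
    (mem_polyRing_iff _ _ _).mpr ⟨C ϖ₀, fun i => by
      rw [coeff_C]; split_ifs
      · exact h₀.mem
      · exact A₀.zero_mem, by simp⟩
  have hDmem : aeval x (g.map A₀.subtype) ∈ polyRing A₀.toSubring x :=
    (mem_polyRing_iff _ _ _).mpr ⟨g.map A₀.subtype, fun i => by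
      rw [coeff_map]; exact (g.coeff i).2, rfl⟩
  obtain ⟨y, hy, hty⟩ := exists_trace_div_notMem hV hx
  refine Nor.isDedekindDomain_quotient_subring E (polyRing A₀.toSubring x) (chart A₀.toSubring x)
    (polyRing (⊤ : Subring K₀) x) (chart (⊤ : Subring K₀) x) (polyRing_mono le_top x)
    (mem_of_mem_polyRing hx.adjoin_eq _) (exists_frac_polyRing h₀ hx.adjoin_eq)
    (fun _ => Iff.rfl) (fun _ => Iff.rfl) (isNoetherianRing_polyRing h₀ htr)
    (mem_polyRing_of_isIntegral h₀ htr hx.adjoin_eq) (isPrincipalIdealRing_polyRing_top htr)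
    (fun n _ => ?_) ⟨_, hπmem⟩ ?_ (exists_pow_mul_mem_polyRing h₀)
    (prime_unif_polyRing h₀ htr _ rfl) (isPrincipalIdealRing_polyRing_quotient h₀ htr _ rfl)
    ϖB hϖB (prime_unif_chart hV hx ϖB hϖB) y hy hty ⟨_, hDmem⟩
    (squarefree_mk_polyRing h₀ htr _ rfl g hg _ rfl)
    (fun f hf hfD => reduced_of_isUnramOutside htr _ hram _ rfl f hf hfD)
  · have := algebraMap_mem_polyRing_top (F := F) (x := x) ((n : K₀)⁻¹)
    rwa [map_inv₀, map_natCast] at this
  · have := algebraMap_mem_polyRing_top (F := F) (x := x) (ϖ₀⁻¹)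
    rwa [map_inv₀] at this

end Fermat.Agent.S18
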