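/-
KL-A: bridge from `S18/Abs/*` (helper128, helper107, helper208) to `inj_abs` of the skeleton.
WIP: contains `sorry`.
-/
import Mathlib
import Fermat.Agent.S18.Defs
import Fermat.Agent.S18.Chart.Unif
import Fermat.Agent.S18.Abs.InjAbs
import Fermat.Agent.S18.Abs.CechBound

set_option autoImplicit false

noncomputable section

namespace Fermat.Agent.S18

open Fermat.Agent.S18.Abs

variable {F : Type*} [Field F] {Ow : ValuationSubring F} {ϖ : F}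

/-! ### INJ-B1 : file `Fermat/Agent/S18/Abs/Bridge1.lean` -/

theorem IsUnif.gaussHyp (hϖ : IsUnif Ow ϖ) : GaussHyp Ow ϖ := by
  sorry

theorem IsChart.chartHyp {B : Subring F} (hϖ : IsUnif Ow ϖ) (hB : IsChart Ow ϖ B) (m : ℕ)
    (hm : 0 < m) : ChartHyp Ow ϖ m B := by
  sorry

theorem IsChart.isFractionRing {B : Subring F} (hϖ : IsUnif Ow ϖ) (hB : IsChart Ow ϖ B) :
    IsFractionRing B F := by
  sorry

theorem RootData.divHyp {B : Subring F} {m : ℕ} {h : F} (hπ : ϖ ∈ B) (hϖ0 : ϖ ≠ 0)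
    (r : RootData B ϖ m h) : DivHyp B (⟨ϖ, hπ⟩ : B) m h := by
  sorry

/-! ### INJ-B2 : file `Fermat/Agent/S18/Abs/Bridge2.lean` -/

theorem IsChart.regAt {B : Subring F} (hB : IsChart Ow ϖ B) (𝔫 : Ideal B) (h𝔫 : 𝔫.IsMaximal)
    (hπ𝔫 : (⟨ϖ, hB.unif_mem⟩ : B) ∈ 𝔫) : RegAt (⟨ϖ, hB.unif_mem⟩ : B) 𝔫 := by
  sorry

theorem IsChart.norm {B : Subring F} (hϖ : IsUnif Ow ϖ) (hB : IsChart Ow ϖ B) {m : ℕ}
    (hm : 0 < m) : ∀ c ∈ Ow, ∀ b ∈ B, (c ^ m - b) / ϖ ∈ Ow → ∃ b' ∈ B, (c - b') / ϖ ∈ Ow := by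
  sorry

/-! ### INJ-B3 : file `Fermat/Agent/S18/Abs/Bridge3.lean` -/

/-- `B[1/x]`. -/
def awaySubring (B : Subring F) (x : F) (hx : x ∈ B) : Subring F where
  carrier := {y | ∃ N : ℕ, x ^ N * y ∈ B}
  mul_mem' := by
    rintro a b ⟨N, hN⟩ ⟨N', hN'⟩
    exact ⟨N + N', by
      have : x ^ (N + N') * (a * b) = (x ^ N * a) * (x ^ N' * b) := by ring
      rw [this]; exact B.mul_mem hN hN'⟩
  one_mem' := ⟨0, by simp⟩
  add_mem' := by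
    rintro a b ⟨N, hN⟩ ⟨N', hN'⟩
    exact ⟨N + N', by
      have : x ^ (N + N') * (a + b) = x ^ N' * (x ^ N * a) + x ^ N * (x ^ N' * b) := by ring
      rw [this]
      exact B.add_mem (B.mul_mem (B.pow_mem hx _) hN) (B.mul_mem (B.pow_mem hx _) hN')⟩
  zero_mem' := ⟨0, by simp⟩
  neg_mem' := by
    rintro a ⟨N, hN⟩
    exact ⟨N, by rw [mul_neg]; exact B.neg_mem hN⟩

theorem awaySubring_chartHyp {A₀ B₁ B₂ : Subring F} {x : F} (hϖ : IsUnif Ow ϖ)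
    (hc : IsCover A₀ x B₁ B₂) (h₁ : IsChart Ow ϖ B₁) (h₂ : IsChart Ow ϖ B₂) (m : ℕ) (hm : 0 < m) :
    ChartHyp Ow ϖ m (awaySubring B₁ x hc.x_mem) := by
  sorry

theorem le_awaySubring₂ {A₀ B₁ B₂ : Subring F} {x : F} (hc : IsCover A₀ x B₁ B₂) :
    B₂ ≤ awaySubring B₁ x hc.x_mem := by
  sorry

/-- the root module of a chart is finitely generated over `A₀[x]`. -/
theorem exists_finset_rootGroup {A₀ B₁ B₂ : Subring F} {x : F} (hϖ : IsUnif Ow ϖ)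
    (hc : IsCover A₀ x B₁ B₂) (h₁ : IsChart Ow ϖ B₁) {m : ℕ} (hm : 0 < m) {h : F}
    (r₁ : RootData B₁ ϖ m h) (hroot : ∀ y : F, y ^ m ∈ B₁ → y ∈ B₁) :
    ∃ s : Finset F, (∀ e ∈ s, e ∈ rootGroup B₁ m hm hroot h) ∧
      ∀ y ∈ rootGroup B₁ m hm hroot h,
        y ∈ Submodule.span A₀ {z : F | ∃ (a : ℕ) (e : F), e ∈ s ∧ z = x ^ a * e} := by
  sorry

/-- bounded torsion of the Cech `H¹`. -/
theorem exists_torsion_bound_rootGroup {A₀ B₁ B₂ : Subring F} {x : F} (hϖ : IsUnif Ow ϖ)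
    (hϖA : ϖ ∈ A₀)
    (hc : IsCover A₀ x B₁ B₂) (h₁ : IsChart Ow ϖ B₁) (h₂ : IsChart Ow ϖ B₂) {m : ℕ} (hm : 0 < m)
    {h : F} (r₁ : RootData B₁ ϖ m h)
    (hr1 : ∀ y : F, y ^ m ∈ B₁ → y ∈ B₁) (hr2 : ∀ y : F, y ^ m ∈ B₂ → y ∈ B₂)
    (hr12 : ∀ y : F, y ^ m ∈ awaySubring B₁ x hc.x_mem → y ∈ awaySubring B₁ x hc.x_mem) :
    ∃ k0 : ℕ, ∀ y ∈ rootGroup (awaySubring B₁ x hc.x_mem) m hm hr12 h, ∀ k : ℕ,
      ϖ ^ k * y ∈ rootGroup B₁ m hm hr1 h ⊔ rootGroup B₂ m hm hr2 h →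
      ϖ ^ k0 * y ∈ rootGroup B₁ m hm hr1 h ⊔ rootGroup B₂ m hm hr2 h := by
  sorry

/-! ### INJ-B4 : file `Fermat/Agent/S18/Abs/InjFinal.lean` -/

theorem inj_abs' (hϖ : IsUnif Ow ϖ) {A₀ B₁ B₂ : Subring F} {x : F} (hϖA : ϖ ∈ A₀)
    (hc : IsCover A₀ x B₁ B₂) (h₁ : IsChart Ow ϖ B₁) (h₂ : IsChart Ow ϖ B₂)
    {m : ℕ} (hm : (m : F) ≠ 0) (hm' : (m : F)⁻¹ ∈ A₀) {h : F} (hh : (h - 1) / ϖ ∈ Ow)
    (r₁ : RootData B₁ ϖ m h) (r₂ : RootData B₂ ϖ m h) :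
    ∃ s : F, s ≠ 0 ∧ s ^ m * h ∈ B₁ ∧ s ^ m * h ∈ B₂ := by
  have hm0 : 0 < m := by
    rcases Nat.eq_zero_or_pos m with rfl | h0
    · simp at hm
    · exact h0
  have c1 := h₁.chartHyp hϖ m hm0
  have c2 := h₂.chartHyp hϖ m hm0
  have c12 := awaySubring_chartHyp hϖ hc h₁ h₂ m hm0
  have g1 : GoodChart Ow ϖ m h B₁ :=
    { c1 with
      frac := h₁.isFractionRing hϖ
      noeth := h₁.noeth
      minv := hc.le₁ hm'
      div := r₁.divHyp _ hϖ.ne_zero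
      reg := fun 𝔫 h𝔫 hπ => h₁.regAt 𝔫 h𝔫 hπ
      norm := h₁.norm hϖ hm0 }
  have g2 : GoodChart Ow ϖ m h B₂ :=
    { c2 with
      frac := h₂.isFractionRing hϖ
      noeth := h₂.noeth
      minv := hc.le₂ hm'
      div := r₂.divHyp _ hϖ.ne_zero
      reg := fun 𝔫 h𝔫 hπ => h₂.regAt 𝔫 h𝔫 hπ
      norm := h₂.norm hϖ hm0 }
  exact inj_abs_core hϖ.gaussHyp hm0 hm hh g1 g2 c12
    (fun b hb => ⟨0, by simpa using hb⟩) (le_awaySubring₂ hc)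
    (exists_torsion_bound_rootGroup hϖ hϖA hc h₁ h₂ hm0 r₁ _ _ _)

end Fermat.Agent.S18
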