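/-
KL-A: assembly of `kl_of_base` from the skeleton blocks + `Descent/Main.lean` (helper248).
WIP: imports the skeletons; to be moved to `Fermat/Agent/S18/KlOfBase.lean` when the blocks land.
-/
import Mathlib
import Fermat.Agent.S18.WIP.ModSkeleton
import Fermat.Agent.S18.Descent.Main
import Fermat.Agent.S18.Descent.JLine

set_option autoImplicit false
set_option linter.style.haveILetI false

noncomputable section

namespace Fermat.Agent.S18

open Polynomial IntermediateField ModularCurve AlgebraicCurve Fermat.Agent.S24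
open Fermat.Agent.S24.FF

theorem toBar_xK {M ℓ : ℕ} (D : BaseData M ℓ) (K₀ : IntermediateField ℚ Kbar) :
    Descent.toBar (modularFunctionFieldFull M) K₀ (D.xK K₀) = D.xK Kbar :=
  Subtype.ext (Descent.coeffMap_coeffEmb' _ _)

theorem map_map_int {R S : Type*} [CommRing R] [CommRing S] (f : R →+* S) (g : ℤ[X]) :
    (g.map (Int.castRingHom R)).map f = g.map (Int.castRingHom S) := by
  rw [Polynomial.map_map]
  congr 1
  exact Subsingleton.elim _ _

theorem kl₀_of_base {M ℓ : ℕ} [NeZero M] [Fact ℓ.Prime] (hℓ : ¬ ℓ ∣ M) (D : BaseData M ℓ)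
    (U : S28.UData M ℓ) (A : ValuationSubring Kbar) (hA : A.LiesOverPrime ℓ) (n : ℕ)
    (hn : ¬ ℓ ∣ n) (K₀ : IntermediateField ℚ Kbar) [FiniteDimensional ℚ K₀] :
    Descent.KL₀ (modularFunctionFieldFull M) A K₀ n := by
  intro P Q hP hQ hres hres0 hdvd
  have hn0 : n ≠ 0 := fun h => hn (h ▸ dvd_zero ℓ)
  obtain ⟨ϖ₀, h₀, hℓA⟩ := exists_isUnif_comap A hA K₀
  obtain ⟨Ow, hG⟩ := exists_isGauss h₀ M
  have hVj := isVert_j h₀ hℓ hℓA U hG
  have hV := hVj.mono (adjoin_jK_le D K₀)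
  have hx := isCoord_base h₀ D hG
  have hx' := isCoord_base_inv h₀ D hG
  have htr : Transcendental K₀ (D.xK K₀) := transcendental_xK D K₀
  have htr' : Transcendental K₀ (D.xK K₀)⁻¹ := FF.transcendental_inv htr
  have htrbar : Transcendental Kbar (D.xK Kbar) := transcendental_xK D Kbar
  have htrbar' : Transcendental Kbar (D.xK Kbar)⁻¹ := FF.transcendental_inv htrbar
  haveI : FiniteDimensional K₀⟮D.xK K₀⟯ (FK K₀ M) := IsFF1.finite _ htr
  haveI : FiniteDimensional K₀⟮(D.xK K₀)⁻¹⟯ (FK K₀ M) := IsFF1.finite _ htr'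
  haveI : FiniteDimensional Kbar⟮D.xK Kbar⟯ (FK Kbar M) := IsFF1.finite _ htrbar
  haveI : FiniteDimensional Kbar⟮(D.xK Kbar)⁻¹⟯ (FK Kbar M) := IsFF1.finite _ htrbar'
  haveI : Algebra.IsAlgebraic K₀ Kbar := inferInstance
  -- branch loci
  have hr₁ : IsUnramOutside (D.xK K₀)
      ((D.g₁.map (Int.castRingHom (A.comap (algebraMap K₀ Kbar)))).map
        (A.comap (algebraMap K₀ Kbar)).subtype) := by
    rw [map_map_int]
    apply isUnramOutside_descent (Descent.toBar (modularFunctionFieldFull M) K₀)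
      (Descent.toBar_algebraMap (modularFunctionFieldFull M) K₀)
    rw [map_map_int, toBar_xK]
    exact isUnramOutside_of_places htrbar _ fun v c hc hv => D.ram₁ v c hc hv
  have hr₂ : IsUnramOutside (D.xK K₀)⁻¹
      ((D.g₂.map (Int.castRingHom (A.comap (algebraMap K₀ Kbar)))).map
        (A.comap (algebraMap K₀ Kbar)).subtype) := by
    rw [map_map_int]
    apply isUnramOutside_descent (Descent.toBar (modularFunctionFieldFull M) K₀)
      (Descent.toBar_algebraMap (modularFunctionFieldFull M) K₀)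
    rw [map_map_int, map_inv₀, toBar_xK]
    exact isUnramOutside_of_places htrbar' _ fun v c hc hv => D.ram₂ v c hc hv
  set h : FK K₀ M := (⟨_, hP⟩ : FK K₀ M) / ⟨_, hQ⟩ with hh_def
  have hh : (h - 1) / algebraMap K₀ (FK K₀ M) ϖ₀ ∈ Ow :=
    hG.sub_one_div_mem h₀ P Q hP hQ hres hres0
  have hh0 : h ≠ 0 := by
    intro h0
    rw [h0, zero_sub, neg_div, one_div] at hh
    exact hV.unif.inv_notMem (by simpa using neg_mem hh)
  have r₁ := rootData_of_places htr hn0 hh0 (fun v _ => hdvd v)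
  have r₂ := rootData_of_places htr' hn0 hh0 (fun v _ => hdvd v)
  exact kl_core hV hx hx' _ _ (squarefree_map_residue h₀ hℓA D.g₁ D.sep₁)
    (squarefree_map_residue h₀ hℓA D.g₂ D.sep₂) hr₁ hr₂ hn0
    (natCast_inv_mem_comap A hA K₀ hn) hh r₁ r₂

theorem kl_of_base' {M ℓ : ℕ} [NeZero M] [Fact ℓ.Prime] (hℓ : ¬ ℓ ∣ M) (D : BaseData M ℓ)
    (U : S28.UData M ℓ) (A : ValuationSubring Kbar) (hA : A.LiesOverPrime ℓ) (n : ℕ)
    (hn : ¬ ℓ ∣ n) : GAL.KL M A n := by
  have hn0 : n ≠ 0 := fun h => hn (h ▸ dvd_zero ℓ)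
  haveI : IsFF1 Kbar (modularFunctionFieldBar M) := Export.isFF1 M
  exact Descent.KL_of_KL₀ M A n hn0 ⊥ fun K₀ hK₀ _ =>
    haveI := hK₀
    kl₀_of_base hℓ D U A hA n hn K₀

end Fermat.Agent.S18

namespace Fermat.Agent.S18

open Fermat.Agent.S24

/-- The key lemma, assembled from `kl_of_base'`, `kl_level` and the three bases. -/
theorem klStatement'
    (hU : ∀ (M ℓ : ℕ) [NeZero M] [Fact ℓ.Prime], ¬ ℓ ∣ M → Nonempty (S28.UData M ℓ)) :
    GAL.KLStatement := by
  intro N _ ℓ hℓp hℓN A hA n hn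
  have hp : ℓ.Prime := hℓp.out
  by_cases h5 : 5 ≤ ℓ
  · obtain ⟨D⟩ := nonempty_baseData_j N ℓ hp h5
    obtain ⟨U⟩ := hU N ℓ hℓN
    exact kl_of_base' hℓN D U A hA n hn
  · have hℓ23 : ℓ = 2 ∨ ℓ = 3 := by
      have h2 := hp.two_le
      have h4 : ℓ ≠ 4 := by
        rintro rfl
        exact absurd hp (by norm_num)
      omega
    rcases hℓ23 with rfl | rfl
    · -- `ℓ = 2`, base `h₃`
      by_cases h3 : 3 ∣ N
      · obtain ⟨D⟩ := nonempty_baseData_h3 N h3
        obtain ⟨U⟩ := hU N 2 hℓN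
        exact kl_of_base' hℓN D U A hA n hn
      · haveI : NeZero (3 * N) := ⟨mul_ne_zero (by norm_num) (NeZero.ne N)⟩
        have h2 : ¬ 2 ∣ 3 * N := by
          intro h
          exact hℓN ((Nat.Coprime.dvd_mul_left (by norm_num)).mp h)
        obtain ⟨D⟩ := nonempty_baseData_h3 (3 * N) (dvd_mul_right 3 N)
        obtain ⟨U⟩ := hU (3 * N) 2 h2
        refine kl_level Nat.prime_three h3 A n ?_ (kl_of_base' h2 D U A hA n hn)
        have : Nat.Coprime n 2 :=
          Nat.Coprime.symm ((Nat.Prime.coprime_iff_not_dvd Nat.prime_two).mpr hn)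
        exact Nat.Coprime.pow_right 2 this
    · -- `ℓ = 3`, base `h₂`
      by_cases h2 : 2 ∣ N
      · obtain ⟨D⟩ := nonempty_baseData_h2 N h2
        obtain ⟨U⟩ := hU N 3 hℓN
        exact kl_of_base' hℓN D U A hA n hn
      · haveI : NeZero (2 * N) := ⟨mul_ne_zero (by norm_num) (NeZero.ne N)⟩
        have h3 : ¬ 3 ∣ 2 * N := by
          intro h
          exact hℓN ((Nat.Coprime.dvd_mul_left (by norm_num)).mp h)
        obtain ⟨D⟩ := nonempty_baseData_h2 (2 * N) (dvd_mul_right 2 N)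
        obtain ⟨U⟩ := hU (2 * N) 3 h3
        refine kl_level Nat.prime_two h2 A n ?_ (kl_of_base' h3 D U A hA n hn)
        exact (Nat.Coprime.symm ((Nat.Prime.coprime_iff_not_dvd Nat.prime_three).mpr hn))

end Fermat.Agent.S18
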