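import Mathlib
import Fermat.Agent.S18.WIP.ModSkeleton
import Fermat.Agent.S24.FFOne

set_option autoImplicit false

noncomputable section

namespace Fermat.Agent.S18

open Polynomial IntermediateField ModularCurve AlgebraicCurve Fermat.Agent.S24

section MAIN

theorem transcendental_inv {K F : Type*} [Field K] [Field F] [Algebra K F] {x : F}
    (hx : Transcendental K x) : Transcendental K x⁻¹ := by
  intro h
  exact hx (by simpa using h.inv)

theorem kl_of_base' {M ℓ : ℕ} [NeZero M] [Fact ℓ.Prime] (hℓ : ¬ ℓ ∣ M) (D : BaseData M ℓ)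
    (U : S28.UData M ℓ) [hFF : FF.IsFF1 Kbar (FN M)]
    (A : ValuationSubring Kbar) (hA : A.LiesOverPrime ℓ) (n : ℕ)
    (hn : ¬ ℓ ∣ n) : GAL.KL M A n := by
  intro P Q hP hQ hred hne hdiv
  classical
  have hn0 : n ≠ 0 := by rintro rfl; exact hn (dvd_zero _)
  set xb : FN M := D.xK Kbar with hxb
  set pb : FN M := ⟨coeffMap A.subtype P, hP⟩ with hpb
  set qb : FN M := ⟨coeffMap A.subtype Q, hQ⟩ with hqb
  have hxtr : Transcendental Kbar xb := transcendental_xK D Kbar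
  have hxtr' : Transcendental Kbar xb⁻¹ := transcendental_inv hxtr
  have hfin : FiniteDimensional Kbar⟮xb⟯ (FN M) := FF.IsFF1.finite xb hxtr
  have hfin' : FiniteDimensional Kbar⟮xb⁻¹⟯ (FN M) := FF.IsFF1.finite xb⁻¹ hxtr'
  have hQ0 : Q ≠ 0 := by rintro rfl; exact hne (map_zero _)
  have hP0 : P ≠ 0 := by rintro rfl; exact hne (by rw [← hred, map_zero])
  have hinjA : Function.Injective (coeffMap A.subtype) :=
    Descent.coeffMap_injective _ A.subtype_injective
  have hqb0 : qb ≠ 0 := by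
    intro h0
    apply hQ0
    apply hinjA
    rw [map_zero]
    exact congrArg Subtype.val h0
  have hpb0 : pb ≠ 0 := by
    intro h0
    apply hP0
    apply hinjA
    rw [map_zero]
    exact congrArg Subtype.val h0
  have hhb0 : pb / qb ≠ 0 := div_ne_zero hpb0 hqb0
  obtain ⟨n1, s1, a1, a1', h1, h1', hs1⟩ :=
    rootData_of_places hxtr hn0 hhb0 (fun v _ => hdiv v)
  obtain ⟨n2, s2, a2, a2', h2, h2', hs2⟩ :=
    rootData_of_places hxtr' hn0 hhb0 (fun v _ => hdiv v)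
  -- the number field
  let S : Finset (LaurentSeries Kbar) :=
    {(pb : LaurentSeries Kbar), (qb : LaurentSeries Kbar)} ∪
      (Finset.univ.image fun k => (a1 k : LaurentSeries Kbar)) ∪
      (Finset.univ.image fun k => (a1' k : LaurentSeries Kbar)) ∪
      (Finset.univ.image fun k => (a2 k : LaurentSeries Kbar)) ∪
      (Finset.univ.image fun k => (a2' k : LaurentSeries Kbar))
  have : Algebra.IsAlgebraic ℚ Kbar := AlgebraicClosure.isAlgebraic ℚ
  obtain ⟨K₀, hK₀fin, -, -, hdef⟩ := Descent.exists_definedOver_finset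
    (F₀ := modularFunctionFieldFull M) S (by
      intro y hy
      simp only [S, Finset.mem_union, Finset.mem_insert, Finset.mem_singleton, Finset.mem_image,
        Finset.mem_univ, true_and] at hy
      rcases hy with (((( rfl | rfl) | ⟨k, rfl⟩) | ⟨k, rfl⟩) | ⟨k, rfl⟩) | ⟨k, rfl⟩ <;>
        exact Subtype.property _) ∅ ⊥
  let ι : FK K₀ M →+* FN M :=
    Descent.baseChangeMap (modularFunctionFieldFull M) (algebraMap K₀ Kbar)
  have hι : ∀ c : K₀, ι (algebraMap K₀ (FK K₀ M) c) = algebraMap Kbar (FN M) (algebraMap K₀ Kbar c) :=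
    fun c => Descent.baseChangeMap_algebraMap _ c
  have hlift : ∀ y : FN M, (y : LaurentSeries Kbar) ∈ S → ∃ y₀ : FK K₀ M, ι y₀ = y := by
    intro y hy
    obtain ⟨y₀, hy₀, e⟩ := hdef _ hy
    exact ⟨⟨y₀, hy₀⟩, Subtype.ext e⟩
  have hιinj : Function.Injective ι := ι.injective
  have hmemS : ∀ y : FN M, (y = pb ∨ y = qb ∨ (∃ k, y = a1 k) ∨ (∃ k, y = a1' k) ∨
      (∃ k, y = a2 k) ∨ (∃ k, y = a2' k)) → (y : LaurentSeries Kbar) ∈ S := by
    intro y hy
    simp only [S, Finset.mem_union, Finset.mem_insert, Finset.mem_singleton, Finset.mem_image,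
      Finset.mem_univ, true_and]
    rcases hy with rfl | rfl | ⟨k, rfl⟩ | ⟨k, rfl⟩ | ⟨k, rfl⟩ | ⟨k, rfl⟩
    · exact Or.inl (Or.inl (Or.inl (Or.inl (Or.inl rfl))))
    · exact Or.inl (Or.inl (Or.inl (Or.inl (Or.inr rfl))))
    · exact Or.inl (Or.inl (Or.inl (Or.inr ⟨k, rfl⟩)))
    · exact Or.inl (Or.inl (Or.inr ⟨k, rfl⟩))
    · exact Or.inl (Or.inr ⟨k, rfl⟩)
    · exact Or.inr ⟨k, rfl⟩
  obtain ⟨p₀, hp₀⟩ := hlift pb (hmemS _ (Or.inl rfl))
  obtain ⟨q₀, hq₀⟩ := hlift qb (hmemS _ (Or.inr (Or.inl rfl)))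
  choose b1 hb1 using fun k => hlift (a1 k) (hmemS _ (Or.inr (Or.inr (Or.inl ⟨k, rfl⟩))))
  choose b1' hb1' using fun k =>
    hlift (a1' k) (hmemS _ (Or.inr (Or.inr (Or.inr (Or.inl ⟨k, rfl⟩)))))
  choose b2 hb2 using fun k =>
    hlift (a2 k) (hmemS _ (Or.inr (Or.inr (Or.inr (Or.inr (Or.inl ⟨k, rfl⟩))))))
  choose b2' hb2' using fun k =>
    hlift (a2' k) (hmemS _ (Or.inr (Or.inr (Or.inr (Or.inr (Or.inr ⟨k, rfl⟩))))))
  set x₀ : FK K₀ M := D.xK K₀ with hx₀
  have hιx : ι x₀ = xb := by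
    apply Subtype.ext
    exact Descent.coeffMap_coeffEmb' _ _
  set h₀ : FK K₀ M := p₀ / q₀ with hh₀
  have hιh : ι h₀ = pb / qb := by rw [hh₀, map_div₀, hp₀, hq₀]
  -- root data over `K₀`
  have r₁ : RootData (chart (⊤ : Subring K₀) x₀) 1 n h₀ := by
    refine ⟨n1, s1, b1, b1', fun k => ?_, fun k => ?_, ?_⟩
    · rw [mem_chart_top_descent ι hι]
      simp only [map_mul, map_pow, hb1, hιh, hιx]
      exact h1 k
    · rw [mem_chart_top_descent ι hι]
      simp only [map_mul, map_pow, map_inv₀, hb1', hιh, hιx]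
      exact h1' k
    · apply hιinj
      rw [map_sum, map_pow, map_one, ← hs1]
      exact Finset.sum_congr rfl fun k _ => by rw [map_mul, hb1, hb1']
  have r₂ : RootData (chart (⊤ : Subring K₀) x₀⁻¹) 1 n h₀ := by
    refine ⟨n2, s2, b2, b2', fun k => ?_, fun k => ?_, ?_⟩
    · rw [mem_chart_top_descent ι hι]
      simp only [map_mul, map_pow, map_inv₀, hb2, hιh, hιx]
      exact h2 k
    · rw [mem_chart_top_descent ι hι]
      simp only [map_mul, map_pow, map_inv₀, hb2', hιh, hιx]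
      exact h2' k
    · apply hιinj
      rw [map_sum, map_pow, map_one, ← hs2]
      exact Finset.sum_congr rfl fun k _ => by rw [map_mul, hb2, hb2']
  -- the discrete valuation ring
  set A₀ : ValuationSubring K₀ := A.comap (algebraMap K₀ Kbar) with hA₀
  obtain ⟨ϖ₀, hunif, hℓA⟩ := exists_isUnif_comap A hA K₀
  obtain ⟨P₀, hP₀⟩ := exists_integral_descent A K₀ P (p₀ : LaurentSeries K₀)
    (congrArg Subtype.val hp₀)
  obtain ⟨Q₀, hQ₀⟩ := exists_integral_descent A K₀ Q (q₀ : LaurentSeries K₀)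
    (congrArg Subtype.val hq₀)
  have hP₀' : coeffMap (algebraMap K₀ Kbar) (coeffMap A₀.subtype P₀) = coeffMap A.subtype P := by
    rw [hP₀]; exact congrArg Subtype.val hp₀
  have hQ₀' : coeffMap (algebraMap K₀ Kbar) (coeffMap A₀.subtype Q₀) = coeffMap A.subtype Q := by
    rw [hQ₀]; exact congrArg Subtype.val hq₀
  have hred₀ : coeffMap (IsLocalRing.residue A₀) P₀ = coeffMap (IsLocalRing.residue A₀) Q₀ :=
    (residue_descent A K₀ P Q P₀ Q₀ hP₀' hQ₀').1 hred
  have hne₀ : coeffMap (IsLocalRing.residue A₀) Q₀ ≠ 0 := by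
    intro h0
    apply hne
    have := (residue_descent A K₀ Q 0 Q₀ 0 hQ₀' (by simp)).2 (by rw [h0, map_zero])
    rw [this, map_zero]
  obtain ⟨Ow, hG⟩ := exists_isGauss hunif M
  have hV : IsVert A₀ ϖ₀ Ow K₀⟮x₀⟯ := (isVert_j hunif hℓ hℓA U hG).mono (adjoin_jK_le D K₀)
  have hx : IsCoord A₀ ϖ₀ Ow K₀⟮x₀⟯ x₀ := isCoord_base hunif D hG
  have hx' : IsCoord A₀ ϖ₀ Ow K₀⟮x₀⟯ x₀⁻¹ := isCoord_base_inv hunif D hG
  have hmapg : ∀ g : ℤ[X], ((g.map (Int.castRingHom A₀)).map A₀.subtype).map (algebraMap K₀ Kbar)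
      = g.map (Int.castRingHom Kbar) := by
    intro g
    rw [Polynomial.map_map, Polynomial.map_map]
    congr 1
  have hr₁ : IsUnramOutside x₀ ((D.g₁.map (Int.castRingHom A₀)).map A₀.subtype) := by
    apply isUnramOutside_descent ι hι
    rw [hmapg, hιx]
    exact isUnramOutside_of_places hxtr _ D.ram₁
  have hr₂ : IsUnramOutside x₀⁻¹ ((D.g₂.map (Int.castRingHom A₀)).map A₀.subtype) := by
    apply isUnramOutside_descent ι hι
    rw [hmapg, map_inv₀, hιx]
    exact isUnramOutside_of_places hxtr' _ D.ram₂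
  have hh : (h₀ - 1) / algebraMap K₀ (FK K₀ M) ϖ₀ ∈ Ow := by
    have := hG.sub_one_div_mem hunif P₀ Q₀ (by rw [hP₀]; exact p₀.2) (by rw [hQ₀]; exact q₀.2)
      hred₀ hne₀
    convert this using 4
    · exact Subtype.ext hP₀.symm
    · exact Subtype.ext hQ₀.symm
  obtain ⟨s, hs0, hs⟩ := kl_core hV hx hx' _ _
    (squarefree_map_residue hunif hℓA D.g₁ D.sep₁) (squarefree_map_residue hunif hℓA D.g₂ D.sep₂)
    hr₁ hr₂ hn0 (natCast_inv_mem_comap A hA K₀ hn) hh r₁ r₂
  obtain ⟨c, hc⟩ := exists_pow_eq_of_isAlgebraic ι hι hn0 hs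
  refine ⟨algebraMap Kbar (FN M) c / ι s, ?_⟩
  have hιs : ι s ≠ 0 := (map_ne_zero ι).2 hs0
  rw [div_pow, ← hc, map_mul, map_pow, hιh]
  field_simp

theorem klStatement'
    (hFF : ∀ M : ℕ, [NeZero M] → FF.IsFF1 Kbar (FN M))
    (hU : ∀ (M ℓ : ℕ) [NeZero M] [Fact ℓ.Prime], ¬ ℓ ∣ M → Nonempty (S28.UData M ℓ)) :
    GAL.KLStatement := by
  intro N _ ℓ hℓp hℓN A hA n hn
  have hp : ℓ.Prime := hℓp.out
  have key : ∀ (M : ℕ) [NeZero M], ¬ ℓ ∣ M → Nonempty (BaseData M ℓ) → GAL.KL M A n := by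
    intro M _ hM ⟨D⟩
    obtain ⟨U⟩ := hU M ℓ hM
    have := hFF M
    exact kl_of_base' hM D U A hA n hn
  by_cases h5 : 5 ≤ ℓ
  · exact key N hℓN (nonempty_baseData_j N ℓ hp h5)
  · have h23 : ℓ = 2 ∨ ℓ = 3 := by
      have h2 := hp.two_le
      have h4 : ℓ ≠ 4 := by rintro rfl; exact absurd hp (by norm_num)
      omega
    rcases h23 with rfl | rfl
    · by_cases h3 : 3 ∣ N
      · exact key N hℓN (nonempty_baseData_h3 N h3)
      · have hN0 : N ≠ 0 := NeZero.ne N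
        have : NeZero (3 * N) := ⟨by positivity⟩
        have h2 : ¬ 2 ∣ 3 * N := by
          intro h
          exact hℓN ((Nat.Coprime.dvd_mul_left (by norm_num)).1 h)
        refine kl_level (r := 3) (by norm_num) h3 A n ?_
          (key (3 * N) h2 (nonempty_baseData_h3 (3 * N) (dvd_mul_right _ _)))
        have h' : Nat.Coprime n 2 := ((Nat.Prime.coprime_iff_not_dvd Nat.prime_two).2 hn).symm
        exact Nat.Coprime.pow_right 2 h'
    · by_cases h2 : 2 ∣ N
      · exact key N hℓN (nonempty_baseData_h2 N h2)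
      · have hN0 : N ≠ 0 := NeZero.ne N
        have : NeZero (2 * N) := ⟨by positivity⟩
        have h3 : ¬ 3 ∣ 2 * N := by
          intro h
          exact hℓN ((Nat.Coprime.dvd_mul_left (by norm_num)).1 h)
        refine kl_level (r := 2) (by norm_num) h2 A n ?_
          (key (2 * N) h3 (nonempty_baseData_h2 (2 * N) (dvd_mul_right _ _)))
        exact ((Nat.Prime.coprime_iff_not_dvd Nat.prime_three).2 hn).symm

end MAIN

end Fermat.Agent.S18
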